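import Fermat.Agent.H62.Cft.TraceDict
import Fermat.Agent.H32.CFT.BrauerDiv
import Fermat.Agent.H78.CFT.LocalInvFormal

/-!
# P-CFT / RECIP-Q, row TR-KUM (helper40), part 1: Kummer descent of a `p`-torsion class

`E ≤ ℚ̄` arbitrary, `u` a level 2-cocycle of `G_E` with values in `ℚ̄ˣ` whose `p`-th power is a
level coboundary.  Then `u` is cohomologous (through level cochains) to `ζ ^ z` for a level
function `z : G_E × G_E → ZMod p` satisfying the twisted cocycle identity.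
-/

set_option autoImplicit false
set_option synthInstance.maxHeartbeats 400000
set_option linter.style.haveILetI false

namespace Fermat.Agent.H40.CFT

open Fermat.Agent.H13.Cft Fermat.Agent.H78.CFT Fermat.Agent.H81.Local
open Fermat.Agent.H49.Unram Fermat.Agent.H61.CFT ExtCitation groupCohomology
open Fermat.Agent.H62.Cft

variable {E : IntermediateField ℚ Qb}

/-- a level function takes finitely many values, all fixed by a smaller level -/
theorem exists_level_fixing {x : E.fixingSubgroup → Qbˣ} (hx : IsLvlFun₁ (lvlE E) x) :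
    ∃ N ∈ (lvlE E).sets, (∀ g, ∀ n ∈ N, x (g * n) = x g) ∧
      ∀ g, ∀ n ∈ N, actU ((n : E.fixingSubgroup) : Qb ≃ₐ[ℚ] Qb) (x g) = x g := by
  obtain ⟨N₀, hN₀, hinv⟩ := hx
  haveI : N₀.FiniteIndex := (lvlE E).finiteIndex N₀ hN₀
  haveI : Finite (E.fixingSubgroup ⧸ N₀) := Subgroup.finite_quotient_of_finiteIndex
  let T : Set Qb := Set.range (fun c : E.fixingSubgroup ⧸ N₀ => ((x (Quotient.out c) : Qbˣ) : Qb))
  haveI : Finite T := Set.finite_range _
  have hT : ∀ g, ((x g : Qbˣ) : Qb) ∈ T := by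
    intro g
    obtain ⟨h, hh⟩ := QuotientGroup.mk_out_eq_mul N₀ g
    refine ⟨(g : E.fixingSubgroup ⧸ N₀), ?_⟩
    show ((x (Quotient.out (g : E.fixingSubgroup ⧸ N₀)) : Qbˣ) : Qb) = _
    rw [hh, hinv g h h.2]
  haveI : Algebra.IsAlgebraic E Qb := isAlgebraic_qbar_over E
  haveI : Normal E Qb := normal_of_isAlgClosed E Qb
  let K : IntermediateField E Qb := IntermediateField.adjoin E T
  haveI : FiniteDimensional E K :=
    IntermediateField.finiteDimensional_adjoin (fun x _ => Algebra.IsIntegral.isIntegral x)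
  let L : IntermediateField E Qb := IntermediateField.normalClosure E K Qb
  haveI : Normal E L := normalClosure.normal E K Qb
  haveI : FiniteDimensional E L := normalClosure.is_finiteDimensional E K Qb
  have hN₁ : (resEF E L).ker ∈ (lvlE E).sets := ker_resEF_mem_lvlE E L
  obtain ⟨N, hN, hle⟩ := (lvlE E).directed N₀ hN₀ _ hN₁
  refine ⟨N, hN, fun g n hn => hinv g n (hle hn).1, fun g n hn => ?_⟩
  have h1 : resEF E L n = 1 := MonoidHom.mem_ker.mp (hle hn).2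
  have h2 := (Fermat.Agent.H75.Inf2.resEF_eq_one_iff E L n).mp h1
  have hmem : ((x g : Qbˣ) : Qb) ∈ L :=
    IntermediateField.le_normalClosure K (IntermediateField.subset_adjoin E T (hT g))
  apply Units.ext
  rw [coe_actU]
  exact h2 ⟨_, hmem⟩

/-- the coboundary of a level 1-cochain is a level function -/
theorem isLvlFun₂_mulD₁E {x : E.fixingSubgroup → Qbˣ} (hx : IsLvlFun₁ (lvlE E) x) :
    IsLvlFun₂ (lvlE E) (mulD₁E E x) := by
  obtain ⟨N, hN, hinv, hfix⟩ := exists_level_fixing hx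
  have hnorm : N.Normal := (lvlE E).normal N hN
  refine ⟨N, hN, fun g h n hn m hm => ?_⟩
  have e1 : g * n * (h * m) = g * h * (h⁻¹ * n * h * m) := by group
  have hmem : h⁻¹ * n * h * m ∈ N := by
    refine N.mul_mem ?_ hm
    have := hnorm.conj_mem n hn h⁻¹
    rwa [inv_inv] at this
  show actU ((g * n : E.fixingSubgroup) : Qb ≃ₐ[ℚ] Qb) (x (h * m)) * x (g * n) / x (g * n * (h * m))
    = actU (g : Qb ≃ₐ[ℚ] Qb) (x h) * x g / x (g * h)
  rw [e1, hinv (g * h) _ hmem, hinv g n hn, hinv h m hm]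
  congr 2
  have e2 : ((g * n : E.fixingSubgroup) : Qb ≃ₐ[ℚ] Qb) = (g : Qb ≃ₐ[ℚ] Qb) * (n : Qb ≃ₐ[ℚ] Qb) :=
    rfl
  have e3 : actU ((g : Qb ≃ₐ[ℚ] Qb) * (n : Qb ≃ₐ[ℚ] Qb)) (x h) =
      actU (g : Qb ≃ₐ[ℚ] Qb) (actU (n : Qb ≃ₐ[ℚ] Qb) (x h)) := by
    apply Units.ext
    rfl
  rw [e2, e3, hfix h n hn]

theorem actU_mul_apply (σ τ : Qb ≃ₐ[ℚ] Qb) (u : Qbˣ) :
    actU (σ * τ) u = actU σ (actU τ u) := by
  apply Units.ext
  rfl

/-- coboundaries are cocycles -/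
theorem isMulCocycle₂E_mulD₁E (x : E.fixingSubgroup → Qbˣ) : IsMulCocycle₂E E (mulD₁E E x) := by
  intro g h j
  show actU ((g * h : E.fixingSubgroup) : Qb ≃ₐ[ℚ] Qb) (x j) * x (g * h) / x (g * h * j) *
      (actU (g : Qb ≃ₐ[ℚ] Qb) (x h) * x g / x (g * h)) =
    actU (g : Qb ≃ₐ[ℚ] Qb) (actU (h : Qb ≃ₐ[ℚ] Qb) (x j) * x h / x (h * j)) *
      (actU (g : Qb ≃ₐ[ℚ] Qb) (x (h * j)) * x g / x (g * (h * j)))
  have e2 : ((g * h : E.fixingSubgroup) : Qb ≃ₐ[ℚ] Qb) = (g : Qb ≃ₐ[ℚ] Qb) * (h : Qb ≃ₐ[ℚ] Qb) :=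
    rfl
  rw [e2, actU_mul_apply, map_div, map_mul, mul_assoc g h j]
  generalize actU (g : Qb ≃ₐ[ℚ] Qb) (actU (h : Qb ≃ₐ[ℚ] Qb) (x j)) = A
  generalize actU (g : Qb ≃ₐ[ℚ] Qb) (x h) = B
  generalize actU (g : Qb ≃ₐ[ℚ] Qb) (x (h * j)) = C
  generalize x (g * h) = D
  generalize x (g * (h * j)) = F
  generalize x g = H
  rw [div_mul_div_comm, div_mul_div_comm, div_eq_div_iff_mul_eq_mul]
  simp only [mul_comm, mul_left_comm]

theorem isLvlFun₂_div {c c' : E.fixingSubgroup × E.fixingSubgroup → Qbˣ}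
    (h : IsLvlFun₂ (lvlE E) c) (h' : IsLvlFun₂ (lvlE E) c') :
    IsLvlFun₂ (lvlE E) (fun x => c x / c' x) := by
  obtain ⟨N, hN, hc⟩ := h
  obtain ⟨N', hN', hc'⟩ := h'
  obtain ⟨N'', hN'', hle⟩ := (lvlE E).directed N hN N' hN'
  refine ⟨N'', hN'', fun g h n hn m hm => ?_⟩
  show c (g * n, h * m) / c' (g * n, h * m) = c (g, h) / c' (g, h)
  rw [hc g h n (hle hn).1 m (hle hm).1, hc' g h n (hle hn).2 m (hle hm).2]

theorem isMulCocycle₂E_div {c c' : E.fixingSubgroup × E.fixingSubgroup → Qbˣ}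
    (h : IsMulCocycle₂E E c) (h' : IsMulCocycle₂E E c') :
    IsMulCocycle₂E E (fun x => c x / c' x) := by
  intro g k j
  show c (g * k, j) / c' (g * k, j) * (c (g, k) / c' (g, k))
    = actU (g : Qb ≃ₐ[ℚ] Qb) (c (k, j) / c' (k, j)) * (c (g, k * j) / c' (g, k * j))
  rw [map_div, div_mul_div_comm, div_mul_div_comm, h g k j, h' g k j]

/-- injectivity of the exponential `a ↦ ζ ^ a.val` -/
theorem trdExp_injective {p : ℕ} [Fact p.Prime] (ζ : Qbˣ) (hζ : IsPrimitiveRoot (ζ : Qb) p) :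
    Function.Injective (trdExp (p := p) ζ) := by
  intro a b hab
  haveI : NeZero p := ⟨(Fact.out : p.Prime).ne_zero⟩
  have h1 : (ζ : Qb) ^ a.val = (ζ : Qb) ^ b.val := by
    have := congrArg (fun u : Qbˣ => (u : Qb)) hab
    simpa [trdExp] using this
  exact ZMod.val_injective p (hζ.pow_inj (ZMod.val_lt a) (ZMod.val_lt b) h1)

/-- **Kummer descent**: a level 2-cocycle whose `p`-th power is a level coboundary is
cohomologous to a `μ_p`-valued level cocycle `ζ ^ z`. -/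
theorem kummerDescent {p : ℕ} [Fact p.Prime] (ζ : Qbˣ) (hζ : IsPrimitiveRoot (ζ : Qb) p)
    (u : E.fixingSubgroup × E.fixingSubgroup → Qbˣ) (hul : IsLvlFun₂ (lvlE E) u)
    (huc : IsMulCocycle₂E E u) (hup : IsLvlMulCoboundary₂E E (fun x => u x ^ p)) :
    ∃ z : E.fixingSubgroup × E.fixingSubgroup → ZMod p,
      IsLvlFun₂ (lvlE E) z ∧
      (∀ g h j : E.fixingSubgroup,
        ((cycloChar p (g : Qb ≃ₐ[ℚ] Qb) : (ZMod p)ˣ) : ZMod p) * z (h, j) - z (g * h, j)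
          + z (g, h * j) - z (g, h) = 0) ∧
      IsLvlMulCoboundary₂E E (fun x => zetaPow ζ z x / u x) := by
  haveI : NeZero p := ⟨(Fact.out : p.Prime).ne_zero⟩
  obtain ⟨x, hxl, hx⟩ := hup
  have hroot : ∀ t : Qbˣ, ∃ s : Qbˣ, s ^ p = t := by
    intro t
    obtain ⟨s, hs⟩ := IsAlgClosed.exists_pow_nat_eq (t : Qb) (Fact.out : p.Prime).pos
    have hs0 : s ≠ 0 := by
      rintro rfl
      rw [zero_pow (Fact.out : p.Prime).ne_zero] at hs
      exact t.ne_zero hs.symm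
    refine ⟨Units.mk0 s hs0, Units.ext ?_⟩
    rw [Units.val_pow_eq_pow_val, Units.val_mk0, hs]
  choose root hroot using hroot
  let y : E.fixingSubgroup → Qbˣ := fun g => root (x g)
  have hyl : IsLvlFun₁ (lvlE E) y := by
    obtain ⟨N, hN, h⟩ := hxl
    exact ⟨N, hN, fun g n hn => by show root (x (g * n)) = root (x g); rw [h g n hn]⟩
  have hyp : ∀ gh, mulD₁E E y gh ^ p = u gh ^ p := by
    intro gh
    have hx' : mulD₁E E x gh = u gh ^ p := hx gh
    rw [← hx']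
    show (actU (gh.1 : Qb ≃ₐ[ℚ] Qb) (root (x gh.2)) * root (x gh.1) / root (x (gh.1 * gh.2))) ^ p
      = actU (gh.1 : Qb ≃ₐ[ℚ] Qb) (x gh.2) * x gh.1 / x (gh.1 * gh.2)
    rw [div_pow, mul_pow, ← map_pow, hroot, hroot, hroot]
  let w : E.fixingSubgroup × E.fixingSubgroup → Qbˣ := fun gh => u gh / mulD₁E E y gh
  have hwp : ∀ gh, w gh ^ p = 1 := by
    intro gh
    show (u gh / mulD₁E E y gh) ^ p = 1
    rw [div_pow, hyp, div_self']
  have hz : ∀ gh, ∃ a : ZMod p, trdExp ζ a = w gh := by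
    intro gh
    have h1 : ((w gh : Qbˣ) : Qb) ^ p = 1 := by
      rw [← Units.val_pow_eq_pow_val, hwp, Units.val_one]
    obtain ⟨i, hi, hpow⟩ := hζ.eq_pow_of_pow_eq_one h1
    refine ⟨(i : ZMod p), Units.ext ?_⟩
    show ((ζ ^ ((i : ZMod p)).val : Qbˣ) : Qb) = _
    rw [ZMod.val_natCast_of_lt hi, Units.val_pow_eq_pow_val, hpow]
  choose z hz using hz
  have hwl : IsLvlFun₂ (lvlE E) w := isLvlFun₂_div hul (isLvlFun₂_mulD₁E hyl)
  have hwc : IsMulCocycle₂E E w := isMulCocycle₂E_div huc (isMulCocycle₂E_mulD₁E y)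
  refine ⟨z, ?_, ?_, ?_⟩
  · obtain ⟨N, hN, hw⟩ := hwl
    refine ⟨N, hN, fun g h n hn m hm => ?_⟩
    apply trdExp_injective ζ hζ
    rw [hz, hz]
    exact hw g h n hn m hm
  · intro g h j
    have key := hwc g h j
    rw [← hz, ← hz, ← hz, ← hz, trdExp_act ζ hζ, ← trdExp_add ζ hζ, ← trdExp_add ζ hζ] at key
    have := trdExp_injective ζ hζ key
    linear_combination -this
  · have h1 : IsLvlMulCoboundary₂E E (mulD₁E E y) := ⟨y, hyl, fun _ => rfl⟩
    refine Fermat.Agent.H32.CFT.isLvlMulCoboundary₂E_congr h1.inv (fun gh => ?_)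
    show (mulD₁E E y gh)⁻¹ = ζ ^ (z gh).val / u gh
    have h2 : ζ ^ (z gh).val = u gh / mulD₁E E y gh := hz gh
    rw [h2, div_right_comm, div_self', one_div]

end Fermat.Agent.H40.CFT
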