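import Fermat.Agent.H40.CFT.KummerDescent
import Fermat.Agent.H81.Local.B5Transport
import Fermat.Agent.H81.Local.LocalFinite
import Fermat.Agent.H53.ES.CycloFrob

/-!
# P-CFT / RECIP-Q, row TR-KUM (helper40), part 2: the FRAME packaging

`traceKummer_of_std : UnramCocycleStatement → TraceKummerStatement`.

The unramified cocycle `u` of degree `p` of a uniformizer of `K_q` has `u ^ p ~ 1` (INV-STD), so by
Kummer descent (`kummerDescent`) it is cohomologous to `ζ ^ z` for a level twisted cocycle `z`;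
`a := z ∘ locEquiv` is the FRAME local cocycle with invariant `1 / p`.
-/

set_option autoImplicit false
set_option synthInstance.maxHeartbeats 400000
set_option linter.style.haveILetI false

namespace Fermat.Agent.H40.CFT

open Fermat.Agent.H13.Cft Fermat.Agent.H78.CFT Fermat.Agent.H81.Local
open Fermat.Agent.H49.Unram Fermat.Agent.H61.CFT ExtCitation groupCohomology
open Fermat.Agent.H62.Cft Fermat.Agent.H25.Recip

/-- the pull-back of the kernel of the mod `p` cyclotomic character is a level -/
theorem cycloKer_mem_pullbackLevelSys (p : ℕ) [Fact p.Prime] {Γ : Type} [Group Γ]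
    (r : Γ →* Fermat.Agent.H13.Cft.GQ) : (cycloChar p).ker.comap r ∈ (pullbackLevelSys r).sets := by
  haveI : NeZero p := ⟨(Fact.out : p.Prime).ne_zero⟩
  obtain ⟨F, hF, hFχ⟩ := Fermat.Agent.H53.cycloChar_factorsThroughFiniteLevel p
  refine ⟨inferInstance, ?_, F, hF, ?_⟩
  · have h1 : (cycloChar p).ker.comap r = ((cycloChar p).comp r).ker := by
      ext x
      simp [MonoidHom.mem_ker]
    rw [h1]
    infer_instance
  · intro x hx
    rw [Subgroup.mem_comap] at hx ⊢
    rw [MonoidHom.mem_ker]
    exact hFχ _ (fun y hy => (IntermediateField.mem_fixingSubgroup_iff _ _).1 hx y hy)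

/-- a level function on `G_{K_q} × G_{K_q}` is a FRAME level 2-cochain -/
theorem frameCochain_mem (p : ℕ) [Fact p.Prime] (q : Nat.Primes)
    (z : (locField q).fixingSubgroup × (locField q).fixingSubgroup → ZMod p)
    (hz : IsLvlFun₂ (lvlE (locField q)) z) :
    (fun g : Fin 2 → primeLocalGaloisGroup q => z (locEquiv q (g 0), locEquiv q (g 1)))
      ∈ lvlCochains (pullbackLevelSys (primeLocalToGlobal q))
        (Rep.res (primeLocalToGlobal q) (muRep (cycloChar p))) 2 := by
  obtain ⟨N, hN, hinv⟩ := hz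
  have h1 : N.comap (locEquiv q).toMonoidHom ∈ (pullbackLevelSys (primeLocalToGlobal q)).sets :=
    comap_mem_pullbackLevelSys (locEquiv q) (primeLocalToGlobal q)
      (locField q).fixingSubgroup.subtype (fun _ => rfl) hN
  have h2 := cycloKer_mem_pullbackLevelSys p (primeLocalToGlobal q)
  obtain ⟨N', hN', hle⟩ := (pullbackLevelSys (primeLocalToGlobal q)).directed _ h1 _ h2
  refine ⟨N', hN', fun g u hu => ?_, fun g s hs => ?_⟩
  · show z (locEquiv q (g 0 * u 0), locEquiv q (g 1 * u 1)) = z (locEquiv q (g 0), locEquiv q (g 1))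
    rw [map_mul, map_mul]
    exact hinv _ _ _ (hle (hu 0)).1 _ (hle (hu 1)).1
  · have h3 : cycloChar p (primeLocalToGlobal q s) = 1 := MonoidHom.mem_ker.mp (hle hs).2
    rw [trd_mu_res_ρ, h3, Units.val_one, one_mul]

/-- **[TR-KUM]** Kummer surjectivity at the unramified class, from INV-STD. -/
theorem traceKummer_of_std (hstd : UnramCocycleStatement) : TraceKummerStatement := by
  intro p _ ζ hζ q _
  have hp : p.Prime := Fact.out
  have hE : IsLocalFinite (q : ℕ) (localField (q : ℕ)) := isLocalFinite_localField (q : ℕ)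
  obtain ⟨π, hπ⟩ := exists_unif_unit hE
  obtain ⟨φ, hφ⟩ := exists_isFrobE hE hp.pos
  -- the unramified cocycle of degree `p`
  have hul := Fermat.Agent.H32.CFT.isLvlFun₂_unramCocycle hφ π
  have huc := Fermat.Agent.H32.CFT.isMulCocycle₂E_unramCocycle hφ π
  have hval : qVal (q : ℕ) (((π ^ p : (localField (q : ℕ))ˣ) : localField (q : ℕ)) : Qb)
      = qVal (q : ℕ) ((π : localField (q : ℕ)) : Qb) ^ (p : ℤ) := by
    rw [Units.val_pow_eq_pow_val, zpow_natCast, ← map_pow]
    rfl
  have hcob : IsLvlMulCoboundary₂E (localField (q : ℕ))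
      (unramCocycle (q : ℕ) (localField (q : ℕ)) p φ (π ^ p)) :=
    (hstd (q : ℕ) (localField (q : ℕ)) hE p φ hφ π (π ^ p) (p : ℤ) hπ hval).mpr (dvd_refl _)
  have hup : IsLvlMulCoboundary₂E (localField (q : ℕ))
      (fun x => unramCocycle (q : ℕ) (localField (q : ℕ)) p φ π x ^ p) := by
    refine hcob.congr (fun x => ?_)
    have h := unramCocycle_zpow p φ π (p : ℤ) x
    rw [zpow_natCast, zpow_natCast] at h
    exact h
  obtain ⟨z, hzl, hzc, hzu⟩ := kummerDescent ζ hζ _ hul huc hup
  -- the FRAME cochain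
  let f : (Fin 2 → primeLocalGaloisGroup q) → ZMod p :=
    fun g => z (locEquiv q (g 0), locEquiv q (g 1))
  have hf : f ∈ lvlCochains (pullbackLevelSys (primeLocalToGlobal q))
      (Rep.res (primeLocalToGlobal q) (muRep (cycloChar p))) 2 := frameCochain_mem p q z hzl
  have hfz : locCoch q f = z := by
    funext x
    show z (locEquiv q ((locEquiv q).symm x.1), locEquiv q ((locEquiv q).symm x.2)) = z x
    rw [MulEquiv.apply_symm_apply, MulEquiv.apply_symm_apply]
    rfl
  refine ⟨⟨f, hf⟩, ?_, π, φ, hπ, hφ, ?_⟩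
  · apply Subtype.ext
    rw [lvlD_coe]
    funext g
    rw [trd_d2_apply, trd_mu_res_ρ]
    show ((cycloChar p (primeLocalToGlobal q (g 0)) : (ZMod p)ˣ) : ZMod p)
        * z (locEquiv q (g 1), locEquiv q (g 2))
      - z (locEquiv q (g 0 * g 1), locEquiv q (g 2))
      + z (locEquiv q (g 0), locEquiv q (g 1 * g 2))
      - z (locEquiv q (g 0), locEquiv q (g 1)) = 0
    rw [map_mul, map_mul]
    exact hzc (locEquiv q (g 0)) (locEquiv q (g 1)) (locEquiv q (g 2))
  · show IsLvlMulCoboundary₂E (localField (q : ℕ))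
      (fun x => zetaPow ζ (locCoch q f) x / unramCocycle (q : ℕ) (localField (q : ℕ)) p φ π x ^ (1 : ℤ))
    rw [hfz]
    refine hzu.congr (fun x => ?_)
    rw [zpow_one]
    rfl

end Fermat.Agent.H40.CFT
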