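import Fermat.Agent.H40.CFT.TraceKummer
import Fermat.Agent.H57.CFT.UnramCocycle

/-!
# P-CFT / RECIP-Q, row TR-KUM (helper40): `TraceKummerStatement`, UNCONDITIONAL
-/

set_option autoImplicit false

namespace Fermat.Agent.H40.CFT

/-- **[TR-KUM]** Kummer surjectivity at the unramified class: there is a FRAME local
2-cocycle at `q` with values in `μ_p` whose canonical invariant is `1 / p`. -/
theorem traceKummer : Fermat.Agent.H25.Recip.TraceKummerStatement :=
  traceKummer_of_std Fermat.Agent.H57.CFT.unramCocycleStd

end Fermat.Agent.H40.CFT
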